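/-
GATE-Q / S52-Q3-FIBRE-AC (helper13): node Q3 (c) + leaf (L-J) of helper23's GRAPH v0.

Klein's icosahedral forms in `(u, v)` (with `U = u^5`, `V = v^5`):
`C20 = kc4 (u^5) (v^5)` (degree 20), `T30 = kT (u^5) (v^5)` (degree 30), `kf = u v (u^10 + 11 u^5 v^5 - v^10)`.

* `klein_syzygy` : `C20 ^ 3 - T30 ^ 2 = -1728 * kf ^ 5`;
* `jac_identity` : `Jac (C20, T30) = 86400 * kf ^ 4` (explicit gradients `C20u C20v T30u T30v`);
* `dirDeriv_C20`, `dirDeriv_T30` : the derivative at `0` of `ε ↦ F (u + ε e₁, v + ε e₂)`;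
* `eq_one_of_preserves` (FREENESS): a linear map `h = (a b; c d)` of `K²` preserving `C20` and `T30` and
  fixing a point `w₀` with `kf w₀ ≠ 0` is the identity (`K` a field of characteristic `0`).

Mathlib only.
-/
import Mathlib

set_option autoImplicit false

namespace Fermat.Agent.G35.Fibre

open Polynomial

section forms

variable {R : Type*} [CommRing R]

/-- Klein's `c4` as a quartic form in `(U, V) = (u^5, v^5)`. -/
def kc4 (U V : R) : R := U ^ 4 + V ^ 4 - 228 * (U ^ 3 * V - U * V ^ 3) + 494 * U ^ 2 * V ^ 2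

/-- Klein's `T` as a sextic form in `(U, V) = (u^5, v^5)`. -/
def kT (U V : R) : R :=
  U ^ 6 + V ^ 6 + 522 * (U ^ 5 * V - U * V ^ 5) - 10005 * (U ^ 4 * V ^ 2 + U ^ 2 * V ^ 4)

/-- Klein's icosahedral form `f` of degree 12 in `(u, v)`. -/
def kf (u v : R) : R := u * v * (u ^ 10 + 11 * u ^ 5 * v ^ 5 - v ^ 10)

/-- `c4` as a form of degree 20 in `(u, v)`. -/
def C20 (u v : R) : R := kc4 (u ^ 5) (v ^ 5)

/-- `T` as a form of degree 30 in `(u, v)`. -/
def T30 (u v : R) : R := kT (u ^ 5) (v ^ 5)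

theorem klein_syzygy (u v : R) : C20 u v ^ 3 - T30 u v ^ 2 = -1728 * kf u v ^ 5 := by
  simp only [C20, T30, kc4, kT, kf]
  ring

/-- `∂C20/∂u`. -/
def C20u (u v : R) : R :=
  20 * u ^ 19 - 3420 * u ^ 14 * v ^ 5 + 4940 * u ^ 9 * v ^ 10 + 1140 * u ^ 4 * v ^ 15

/-- `∂C20/∂v`. -/
def C20v (u v : R) : R :=
  -1140 * u ^ 15 * v ^ 4 + 4940 * u ^ 10 * v ^ 9 + 3420 * u ^ 5 * v ^ 14 + 20 * v ^ 19

/-- `∂T30/∂u`. -/
def T30u (u v : R) : R :=
  30 * u ^ 29 + 13050 * u ^ 24 * v ^ 5 - 200100 * u ^ 19 * v ^ 10 - 100050 * u ^ 9 * v ^ 20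
    - 2610 * u ^ 4 * v ^ 25

/-- `∂T30/∂v`. -/
def T30v (u v : R) : R :=
  2610 * u ^ 25 * v ^ 4 - 100050 * u ^ 20 * v ^ 9 - 200100 * u ^ 10 * v ^ 19 - 13050 * u ^ 5 * v ^ 24
    + 30 * v ^ 29

/-- **Jacobian identity** `Jac (c4, T) = 86400 f ^ 4`. -/
theorem jac_identity (u v : R) :
    C20u u v * T30v u v - C20v u v * T30u u v = 86400 * kf u v ^ 4 := by
  simp only [C20u, C20v, T30u, T30v, kf]
  ring

theorem euler_C20 (u v : R) : u * C20u u v + v * C20v u v = 20 * C20 u v := by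
  simp only [C20u, C20v, C20, kc4]
  ring

theorem euler_T30 (u v : R) : u * T30u u v + v * T30v u v = 30 * T30 u v := by
  simp only [T30u, T30v, T30, kT]
  ring

/-- The polynomial `ε ↦ C20 (u + ε e₁, v + ε e₂)`. -/
noncomputable def C20line (u v e₁ e₂ : R) : R[X] :=
  kc4 ((C u + C e₁ * X) ^ 5) ((C v + C e₂ * X) ^ 5)

/-- The polynomial `ε ↦ T30 (u + ε e₁, v + ε e₂)`. -/
noncomputable def T30line (u v e₁ e₂ : R) : R[X] :=
  kT ((C u + C e₁ * X) ^ 5) ((C v + C e₂ * X) ^ 5)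

theorem C20line_eval (u v e₁ e₂ ε : R) :
    (C20line u v e₁ e₂).eval ε = C20 (u + e₁ * ε) (v + e₂ * ε) := by
  simp [C20line, C20, kc4]

theorem T30line_eval (u v e₁ e₂ ε : R) :
    (T30line u v e₁ e₂).eval ε = T30 (u + e₁ * ε) (v + e₂ * ε) := by
  simp [T30line, T30, kT]

theorem dirDeriv_C20 (u v e₁ e₂ : R) :
    (derivative (C20line u v e₁ e₂)).eval 0 = C20u u v * e₁ + C20v u v * e₂ := by
  simp only [C20line, kc4, C20u, C20v]
  simp only [derivative_add, derivative_sub, derivative_mul, derivative_pow, derivative_C,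
    derivative_X, derivative_ofNat, eval_add, eval_sub, eval_mul, eval_pow, eval_C, eval_X,
    eval_ofNat, Nat.cast_ofNat, zero_mul, mul_zero, add_zero, zero_add, mul_one]
  ring

theorem dirDeriv_T30 (u v e₁ e₂ : R) :
    (derivative (T30line u v e₁ e₂)).eval 0 = T30u u v * e₁ + T30v u v * e₂ := by
  simp only [T30line, kT, T30u, T30v]
  simp only [derivative_add, derivative_sub, derivative_mul, derivative_pow, derivative_C,
    derivative_X, derivative_ofNat, eval_add, eval_sub, eval_mul, eval_pow, eval_C, eval_X,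
    eval_ofNat, Nat.cast_ofNat, zero_mul, mul_zero, add_zero, zero_add, mul_one]
  ring

end forms

section free

variable {K : Type*} [Field K] [CharZero K]

/-- If `F (w₀ + ε e') = F (w₀ + ε e)` for all `ε`, then the two directional derivatives agree. -/
theorem grad_C20_eq {u v e₁ e₂ e₁' e₂' : K}
    (h : ∀ ε : K, C20 (u + e₁' * ε) (v + e₂' * ε) = C20 (u + e₁ * ε) (v + e₂ * ε)) :
    C20u u v * e₁' + C20v u v * e₂' = C20u u v * e₁ + C20v u v * e₂ := by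
  have hp : C20line u v e₁' e₂' = C20line u v e₁ e₂ := by
    apply Polynomial.funext
    intro ε
    rw [C20line_eval, C20line_eval, h]
  rw [← dirDeriv_C20, ← dirDeriv_C20, hp]

theorem grad_T30_eq {u v e₁ e₂ e₁' e₂' : K}
    (h : ∀ ε : K, T30 (u + e₁' * ε) (v + e₂' * ε) = T30 (u + e₁ * ε) (v + e₂ * ε)) :
    T30u u v * e₁' + T30v u v * e₂' = T30u u v * e₁ + T30v u v * e₂ := by
  have hp : T30line u v e₁' e₂' = T30line u v e₁ e₂ := by
    apply Polynomial.funext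
    intro ε
    rw [T30line_eval, T30line_eval, h]
  rw [← dirDeriv_T30, ← dirDeriv_T30, hp]

/-- **FREENESS (entry form).** A linear substitution `(u, v) ↦ (a u + b v, c u + d v)` preserving
`C20` and `T30` and fixing a point `(u₀, v₀)` with `kf u₀ v₀ ≠ 0` is the identity. -/
theorem eq_one_of_preserves' {a b c d u₀ v₀ : K}
    (hC : ∀ u v : K, C20 (a * u + b * v) (c * u + d * v) = C20 u v)
    (hT : ∀ u v : K, T30 (a * u + b * v) (c * u + d * v) = T30 u v)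
    (hu : a * u₀ + b * v₀ = u₀) (hv : c * u₀ + d * v₀ = v₀) (hf : kf u₀ v₀ ≠ 0) :
    a = 1 ∧ b = 0 ∧ c = 0 ∧ d = 1 := by
  -- for every direction `e`, the gradients kill `h e - e`
  have key : ∀ e₁ e₂ : K,
      C20u u₀ v₀ * (a * e₁ + b * e₂) + C20v u₀ v₀ * (c * e₁ + d * e₂)
          = C20u u₀ v₀ * e₁ + C20v u₀ v₀ * e₂ ∧
      T30u u₀ v₀ * (a * e₁ + b * e₂) + T30v u₀ v₀ * (c * e₁ + d * e₂)
          = T30u u₀ v₀ * e₁ + T30v u₀ v₀ * e₂ := by
    intro e₁ e₂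
    constructor
    · apply grad_C20_eq
      intro ε
      have h1 := hC (u₀ + e₁ * ε) (v₀ + e₂ * ε)
      have e1 : a * (u₀ + e₁ * ε) + b * (v₀ + e₂ * ε) = u₀ + (a * e₁ + b * e₂) * ε := by
        linear_combination hu
      have e2 : c * (u₀ + e₁ * ε) + d * (v₀ + e₂ * ε) = v₀ + (c * e₁ + d * e₂) * ε := by
        linear_combination hv
      rw [e1, e2] at h1
      exact h1
    · apply grad_T30_eq
      intro ε
      have h1 := hT (u₀ + e₁ * ε) (v₀ + e₂ * ε)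
      have e1 : a * (u₀ + e₁ * ε) + b * (v₀ + e₂ * ε) = u₀ + (a * e₁ + b * e₂) * ε := by
        linear_combination hu
      have e2 : c * (u₀ + e₁ * ε) + d * (v₀ + e₂ * ε) = v₀ + (c * e₁ + d * e₂) * ε := by
        linear_combination hv
      rw [e1, e2] at h1
      exact h1
  have hJ : C20u u₀ v₀ * T30v u₀ v₀ - C20v u₀ v₀ * T30u u₀ v₀ ≠ 0 := by
    rw [jac_identity]
    have h86400 : (86400 : K) ≠ 0 := by norm_num
    exact mul_ne_zero h86400 (pow_ne_zero 4 hf)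
  obtain ⟨k1, k2⟩ := key 1 0
  obtain ⟨k3, k4⟩ := key 0 1
  simp only [mul_one, mul_zero, add_zero, zero_add] at k1 k2 k3 k4
  -- Cramer's rule
  have ha : (C20u u₀ v₀ * T30v u₀ v₀ - C20v u₀ v₀ * T30u u₀ v₀) * (a - 1) = 0 := by
    linear_combination T30v u₀ v₀ * k1 - C20v u₀ v₀ * k2
  have hc : (C20u u₀ v₀ * T30v u₀ v₀ - C20v u₀ v₀ * T30u u₀ v₀) * c = 0 := by
    linear_combination C20u u₀ v₀ * k2 - T30u u₀ v₀ * k1
  have hb : (C20u u₀ v₀ * T30v u₀ v₀ - C20v u₀ v₀ * T30u u₀ v₀) * b = 0 := by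
    linear_combination T30v u₀ v₀ * k3 - C20v u₀ v₀ * k4
  have hd : (C20u u₀ v₀ * T30v u₀ v₀ - C20v u₀ v₀ * T30u u₀ v₀) * (d - 1) = 0 := by
    linear_combination C20u u₀ v₀ * k4 - T30u u₀ v₀ * k3
  refine ⟨?_, ?_, ?_, ?_⟩
  · exact sub_eq_zero.mp ((mul_eq_zero.mp ha).resolve_left hJ)
  · exact (mul_eq_zero.mp hb).resolve_left hJ
  · exact (mul_eq_zero.mp hc).resolve_left hJ
  · exact sub_eq_zero.mp ((mul_eq_zero.mp hd).resolve_left hJ)

/-- **FREENESS (matrix form).** `h ∈ M₂(K)` preserving `C20`, `T30` (for the action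
`w ↦ h.mulVec w`) and fixing `w₀` with `kf w₀ ≠ 0` is `1`. -/
theorem eq_one_of_preserves (h : Matrix (Fin 2) (Fin 2) K)
    (hC : ∀ w : Fin 2 → K, C20 (h.mulVec w 0) (h.mulVec w 1) = C20 (w 0) (w 1))
    (hT : ∀ w : Fin 2 → K, T30 (h.mulVec w 0) (h.mulVec w 1) = T30 (w 0) (w 1))
    (w₀ : Fin 2 → K) (hfix : h.mulVec w₀ = w₀) (hf : kf (w₀ 0) (w₀ 1) ≠ 0) : h = 1 := by
  have mv0 : ∀ w : Fin 2 → K, h.mulVec w 0 = h 0 0 * w 0 + h 0 1 * w 1 := by
    intro w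
    simp [Matrix.mulVec, dotProduct, Fin.sum_univ_two]
  have mv1 : ∀ w : Fin 2 → K, h.mulVec w 1 = h 1 0 * w 0 + h 1 1 * w 1 := by
    intro w
    simp [Matrix.mulVec, dotProduct, Fin.sum_univ_two]
  have hC' : ∀ u v : K, C20 (h 0 0 * u + h 0 1 * v) (h 1 0 * u + h 1 1 * v) = C20 u v := by
    intro u v
    have := hC ![u, v]
    rw [mv0, mv1] at this
    simpa using this
  have hT' : ∀ u v : K, T30 (h 0 0 * u + h 0 1 * v) (h 1 0 * u + h 1 1 * v) = T30 u v := by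
    intro u v
    have := hT ![u, v]
    rw [mv0, mv1] at this
    simpa using this
  have hu : h 0 0 * w₀ 0 + h 0 1 * w₀ 1 = w₀ 0 := by
    rw [← mv0, hfix]
  have hv : h 1 0 * w₀ 0 + h 1 1 * w₀ 1 = w₀ 1 := by
    rw [← mv1, hfix]
  obtain ⟨h00, h01, h10, h11⟩ := eq_one_of_preserves' hC' hT' hu hv hf
  ext i j
  fin_cases i <;> fin_cases j <;> simp [h00, h01, h10, h11]

end free

end Fermat.Agent.G35.Fibre
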